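import Fermat.Agent.S26.Ample.H277.Project
import Fermat.Agent.S26.H87.BetaB2

/-!
# S26 / AMPLE / A4-a FINITE (helper277): adapter from leaf B2 (helper87)

`finiteStatement : FiniteStatement K` : on an integral scheme proper over a field, the function
field is finite over the field generated by the affine coordinates of a good system `v` with
`v 0 ≠ 0`.  Proof: `H87.exists_finite_of_bpf` (`Γ(D_0(v))` is a finite module over
`K[X_1, …, X_g]`, `X_i ↦ v_i / v_0`) and `K(X) = Frac Γ(D_0(v))`.

Consequence: `project : Ample.Stmt.Project K` (unconditional) and `project926`.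
-/

set_option autoImplicit false
set_option linter.style.haveILetI false
universe u

open CategoryTheory CategoryTheory.Limits AlgebraicGeometry NeronModelInfra GoodReductionJacobian

namespace Fermat.Agent.S26.Ample.H277

open Fermat.Agent.S26 Fermat.Agent.S26.H277

noncomputable section

variable {K : Type u} [Field K]

/-- At a point whose local ring maps onto the function field, every nonzero member generates. -/
theorem genAt_of_surjective {X : Scheme.{u}} [IsIntegral X] {ι : Type} (v : ι → X.functionField)
    (x : X) (hsurj : Function.Surjective (algebraMap (X.presheaf.stalk x) X.functionField))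
    (b : ι) (hb : v b ≠ 0) : LS.GenAt v x b := by
  refine ⟨hb, ?_⟩
  have htop : Submodule.span (X.presheaf.stalk x) {v b} = ⊤ := by
    rw [eq_top_iff]
    intro y _
    obtain ⟨r, hr⟩ := hsurj (y / v b)
    exact Submodule.mem_span_singleton.mpr
      ⟨r, by rw [Algebra.smul_def, hr, div_mul_cancel₀ _ hb]⟩
  rw [htop, LS.span, eq_top_iff, ← htop]
  exact Submodule.span_mono (Set.singleton_subset_iff.mpr ⟨b, rfl⟩)

theorem surjective_algebraMap_of_isField {X : Scheme.{u}} [IsIntegral X] (x : X)
    (h : IsField (X.presheaf.stalk x)) :
    Function.Surjective (algebraMap (X.presheaf.stalk x) X.functionField) :=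
  (IsFractionRing.surjective_iff_isField (R := X.presheaf.stalk x)
    (K := X.functionField)).mpr h

/-- At the generic point every nonzero member generates. -/
theorem genAt_genericPoint {X : Scheme.{u}} [IsIntegral X] {ι : Type} (v : ι → X.functionField)
    (b : ι) (hb : v b ≠ 0) : LS.GenAt v (genericPoint X) b :=
  genAt_of_surjective v (genericPoint X)
    (surjective_algebraMap_of_isField (genericPoint X) (Field.toIsField X.functionField)) b hb

section Finite

variable {X : Scheme.{u}} [IsIntegral X] (str : X ⟶ Spec (CommRingCat.of K))

theorem algebraMap_strHom (U : X.Opens) [Nonempty U] (a : K) :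
    algebraMap Γ(X, U) X.functionField (H87.strHom str U a) = ffStr str a := by
  have hη : genericPoint X ∈ U :=
    ((genericPoint_spec X).mem_open_set_iff U.isOpen).mpr (by simpa using ‹Nonempty U›)
  change X.presheaf.germ U (genericPoint X) hη (H87.strHom str U a) = _
  simp only [H87.strHom, RingHom.comp_apply]
  erw [X.presheaf.germ_res_apply]
  rfl

/-- **A4-a FINITE.** -/
theorem finiteStatement (K : Type u) [Field K] : FiniteStatement K := by
  intro X _ str _ g v hv hv0
  obtain ⟨U, hUaff, hU⟩ := hv.2 0
  have hη : genericPoint X ∈ U := (hU _).mpr (genAt_genericPoint v 0 hv0)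
  obtain ⟨t, ht, hfin, -⟩ := H87.exists_finite_of_bpf v str hv.1 U hUaff hU
  haveI : Nonempty U := ⟨⟨_, hη⟩⟩
  haveI : IsFractionRing Γ(X, U) X.functionField :=
    functionField_isFractionRing_of_isAffineOpen X U hUaff
  set E := LS.coordField str v with hE
  let germ : Γ(X, U) →+* X.functionField := algebraMap Γ(X, U) X.functionField
  have hgerm_t : ∀ i, germ (t i) = LS.ratios v i := fun i => ht i hη
  let ψ : MvPolynomial (Fin g) K →+* X.functionField := germ.comp (H87.tRingHom str U t)
  have hψ : ∀ p, ψ p ∈ E := by
    intro p
    induction p using MvPolynomial.induction_on with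
    | C a =>
      have : ψ (MvPolynomial.C a) = ffStr str a := by
        simp only [ψ, RingHom.comp_apply, H87.tRingHom_C]
        exact algebraMap_strHom str U a
      rw [this]
      exact Subfield.subset_closure (Or.inl ⟨a, rfl⟩)
    | add p q hp hq =>
      rw [map_add]
      exact E.add_mem hp hq
    | mul_X p i hp =>
      rw [map_mul]
      refine E.mul_mem hp ?_
      have : ψ (MvPolynomial.X i) = LS.ratios v i := by
        simp only [ψ, RingHom.comp_apply, H87.tRingHom_X]
        exact hgerm_t i
      rw [this]
      exact Subfield.subset_closure (Or.inr ⟨i, rfl⟩)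
  let ψE : MvPolynomial (Fin g) K →+* E :=
    { toFun := fun p => ⟨ψ p, hψ p⟩
      map_one' := Subtype.ext (map_one ψ)
      map_mul' := fun x y => Subtype.ext (map_mul ψ x y)
      map_zero' := Subtype.ext (map_zero ψ)
      map_add' := fun x y => Subtype.ext (map_add ψ x y) }
  -- integrality of sections
  have hint : ∀ s : Γ(X, U), IsIntegral E (germ s) := by
    intro s
    obtain ⟨p, hp, hps⟩ := hfin.to_isIntegral s
    refine ⟨p.map ψE, hp.map _, ?_⟩
    rw [Polynomial.eval₂_map]
    have h1 : (algebraMap E X.functionField).comp ψE = germ.comp (H87.tRingHom str U t) := by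
      ext <;> rfl
    rw [h1, ← Polynomial.hom_eval₂, hps, map_zero]
  -- generators
  letI algP : Algebra (MvPolynomial (Fin g) K) Γ(X, U) := (H87.tRingHom str U t).toAlgebra
  have hfg : Module.Finite (MvPolynomial (Fin g) K) Γ(X, U) := hfin
  obtain ⟨S, hS⟩ := hfg.fg_top
  let T : Set X.functionField := germ '' (S : Set Γ(X, U))
  haveI : Finite T := (S.finite_toSet.image germ).to_subtype
  have hTint : ∀ x ∈ T, IsIntegral E x := by
    rintro _ ⟨s, -, rfl⟩
    exact hint s
  haveI hfd : FiniteDimensional E (IntermediateField.adjoin E T) :=
    IntermediateField.finiteDimensional_adjoin hTint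
  have hmem : ∀ a : Γ(X, U), germ a ∈ IntermediateField.adjoin E T := by
    intro a
    have ha : a ∈ Submodule.span (MvPolynomial (Fin g) K) (S : Set Γ(X, U)) := by
      rw [hS]; trivial
    induction ha using Submodule.span_induction with
    | mem x hx => exact IntermediateField.subset_adjoin E T ⟨x, hx, rfl⟩
    | zero => rw [map_zero]; exact zero_mem _
    | add x y _ _ hx hy => rw [map_add]; exact add_mem hx hy
    | smul p x _ hx =>
      have : germ (p • x) = ψ p * germ x := by
        rw [Algebra.smul_def, map_mul]
        rfl
      rw [this]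
      refine mul_mem ?_ hx
      have : ψ p = algebraMap E X.functionField ⟨ψ p, hψ p⟩ := rfl
      rw [this]
      exact IntermediateField.algebraMap_mem _ _
  have htop : IntermediateField.adjoin E T = ⊤ := by
    rw [eq_top_iff]
    intro y _
    obtain ⟨a, b, -, rfl⟩ := IsFractionRing.div_surjective (A := Γ(X, U)) y
    exact div_mem (hmem a) (hmem b)
  haveI : FiniteDimensional E (⊤ : IntermediateField E X.functionField) := htop ▸ hfd
  haveI : Module.Finite E X.functionField :=
    Module.Finite.equiv (IntermediateField.topEquiv (F := E) (E := X.functionField)).toLinearEquiv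
  exact Module.finrank_pos

end Finite

/-- **AM-A4** (`Ample.Stmt.Project`, interface of helper752), unconditional. -/
theorem project (K : Type u) [Field K] [IsAlgClosed K] : Ample.Stmt.Project K :=
  project_of (finiteStatement K)

/-- **AM-A4** in the shape of helper926 (`H926.Ample.Project`), unconditional. -/
theorem project926 (K : Type u) [Field K] [IsAlgClosed K] : H926.Ample.Project K :=
  project926_of (finiteStatement K)

end

end Fermat.Agent.S26.Ample.H277
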