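import Fermat.Agent.S26.Ample.Spec
import Fermat.Agent.S26.H926.AmpleSpec
import Fermat.Agent.S26.H277.A4
import Fermat.Agent.S26.H566.LS2
import Fermat.Agent.S26.H86.Trdeg

/-!
# S26 / AMPLE / A4 = `Ample.Stmt.Project` (helper277): BPF + assembly

* `bpf_same_of_homIntegral` (A4-d): if `u` consists of members of the `K`-span of a base point
  free system `w` and every `w_i` is homogeneously integral over `K[u]`, then `u` is base point
  free and generates the same fractional ideal sheaf.
* `project_of` : `Ample.Stmt.Project K` from three inputs, stated as Props in this file: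
  `FiniteStatement` (A4-a), `TrdegStatement` (A4-b = FF5, consumer form), `LS2Statement` (A4-e).
  The graded Noether normalisation (A4-c) is `Fermat.Agent.S26.H277.graded_noether_ratios`.
-/

set_option autoImplicit false
set_option linter.style.haveILetI false
universe u

open CategoryTheory CategoryTheory.Limits AlgebraicGeometry NeronModelInfra GoodReductionJacobian

namespace Fermat.Agent.S26.Ample.H277

open Fermat.Agent.S26 Fermat.Agent.S26.H277

noncomputable section

variable {K : Type u} [Field K]

section Plumbing

variable {X : Scheme.{u}} [IsIntegral X] (str : X ⟶ Spec (CommRingCat.of K))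

/-- The structure map `K → O_{X,x}`. -/
def stalkStr (x : X) : K →+* X.presheaf.stalk x :=
  ((Scheme.ΓSpecIso (CommRingCat.of K)).inv ≫ str.appTop ≫
    X.presheaf.germ ⊤ x (TopologicalSpace.Opens.mem_top _)).hom

theorem algebraMap_stalkStr (x : X) (c : K) :
    algebraMap (X.presheaf.stalk x) X.functionField (stalkStr str x c) = ffStr str c := by
  have h : X.presheaf.germ ⊤ x (TopologicalSpace.Opens.mem_top _) ≫
      X.presheaf.stalkSpecializes ((genericPoint_spec X).specializes trivial) =
      X.presheaf.germ ⊤ (genericPoint X) (TopologicalSpace.Opens.mem_top _) :=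
    X.presheaf.germ_stalkSpecializes _ _
  simp only [stalkStr, ffStr, RingHom.algebraMap_toAlgebra]
  rw [← h]
  rfl

end Plumbing

section BPF

variable {X : Scheme.{u}} [IsIntegral X] (str : X ⟶ Spec (CommRingCat.of K))

/-- The system of `K`-linear combinations of `w` with coefficient matrix `a`. -/
def linSys {k n : ℕ} (a : Fin k → Fin n → K) (w : Fin n → X.functionField) :
    Fin k → X.functionField :=
  fun j => ∑ i, ffStr str (a j i) * w i

theorem linSys_eq_lin {k n : ℕ} (a : Fin k → Fin n → K) (w : Fin n → X.functionField) :
    linSys str a w = @lin K _ X.functionField _ (ffStr str).toAlgebra k n a w := by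
  letI : Algebra K X.functionField := (ffStr str).toAlgebra
  funext j
  simp only [linSys, lin, Algebra.smul_def]
  rfl

theorem linSys_mem_span {k n : ℕ} (a : Fin k → Fin n → K) (w : Fin n → X.functionField)
    (j : Fin k) (x : X) : linSys str a w j ∈ LS.span w x := by
  refine Submodule.sum_mem _ fun i _ => ?_
  rw [← algebraMap_stalkStr str x, ← Algebra.smul_def]
  exact Submodule.smul_mem _ _ (Submodule.subset_span ⟨i, rfl⟩)

theorem mem_span_singleton_iff {x : X} {f g : X.functionField} :
    f ∈ Submodule.span (X.presheaf.stalk x) {g} ↔
      ∃ r : X.presheaf.stalk x, algebraMap (X.presheaf.stalk x) X.functionField r * g = f := by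
  rw [Submodule.mem_span_singleton]
  simp only [Algebra.smul_def]

/-- **A4-d, pointwise.**  If every `w_i` is homogeneously integral over `K[u]`, `u` the system
of `K`-linear combinations of the base point free system `w` with coefficient matrix `a`, then
at every point some `u_j` generates the fractional ideal of `w`. -/
theorem genBy_of_homIntegral {k n : ℕ} (a : Fin k → Fin n → K) (w : Fin n → X.functionField)
    (hw : LS.BPF w)
    (hint : ∀ i, @HomIntegral K _ X.functionField _ (ffStr str).toAlgebra k
      (linSys str a w) (w i)) (x : X) :
    ∃ j, linSys str a w j ≠ 0 ∧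
      LS.span w x = Submodule.span (X.presheaf.stalk x) {linSys str a w j} := by
  letI algF : Algebra K X.functionField := (ffStr str).toAlgebra
  set u := linSys str a w with hu
  letI algO : Algebra K (X.presheaf.stalk x) := (stalkStr str x).toAlgebra
  haveI : IsScalarTower K (X.presheaf.stalk x) X.functionField :=
    IsScalarTower.of_algebraMap_eq fun c => (algebraMap_stalkStr str x c).symm
  obtain ⟨b, hb0, hb⟩ := hw x
  have hmem : ∀ j, ∃ r : X.presheaf.stalk x,
      algebraMap (X.presheaf.stalk x) X.functionField r * w b = u j := by
    intro j
    have := linSys_mem_span str a w j x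
    rw [hb] at this
    exact mem_span_singleton_iff.mp this
  choose r hr using hmem
  have hr' : ∀ j, algebraMap (X.presheaf.stalk x) X.functionField (r j) = u j / w b := by
    intro j
    rw [← hr j]
    field_simp
  obtain ⟨j, hj⟩ := exists_isUnit_of_homIntegral (K := K)
    (IsFractionRing.injective (X.presheaf.stalk x) X.functionField) u (w b) hb0 (hint b) r hr'
  refine ⟨j, ?_, ?_⟩
  · rw [← hr j]
    refine mul_ne_zero ?_ hb0
    intro h0
    have : r j = 0 :=
      IsFractionRing.injective (X.presheaf.stalk x) X.functionField (by rw [h0, map_zero])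
    rw [this] at hj
    exact not_isUnit_zero hj
  · rw [hb]
    apply le_antisymm
    · rw [Submodule.span_singleton_le_iff_mem]
      obtain ⟨s, hs⟩ := hj.exists_left_inv
      refine mem_span_singleton_iff.mpr ⟨s, ?_⟩
      rw [← hr j, ← mul_assoc, ← map_mul, hs, map_one, one_mul]
    · rw [Submodule.span_singleton_le_iff_mem]
      exact mem_span_singleton_iff.mpr ⟨r j, hr j⟩

/-- **A4-d.**  Members of the `K`-span of a base point free system `w`, over which every `w_i`
is homogeneously integral, form a base point free system generating the same fractional ideal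
sheaf. -/
theorem bpf_same_of_homIntegral {k n : ℕ} (a : Fin k → Fin n → K) (w : Fin n → X.functionField)
    (hw : LS.BPF w)
    (hint : ∀ i, @HomIntegral K _ X.functionField _ (ffStr str).toAlgebra k
      (linSys str a w) (w i)) :
    LS.BPF (linSys str a w) ∧ LS.Same (linSys str a w) w := by
  have key := genBy_of_homIntegral str a w hw hint
  have hspan : ∀ x : X, LS.span (linSys str a w) x = LS.span w x := by
    intro x
    obtain ⟨j, -, hj⟩ := key x
    apply le_antisymm
    · exact Submodule.span_le.mpr (by rintro _ ⟨i, rfl⟩; exact linSys_mem_span str a w i x)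
    · rw [hj, Submodule.span_singleton_le_iff_mem]
      exact Submodule.subset_span ⟨j, rfl⟩
  refine ⟨fun x => ?_, hspan⟩
  obtain ⟨j, hj0, hj⟩ := key x
  exact ⟨j, hj0, (hspan x).trans hj⟩

end BPF

section Assembly

/-- **A4-a FINITE** (input): on an integral scheme proper over `K`, the function field is finite
over the field generated by the affine coordinates of a good system `v` with `v 0 ≠ 0`
(the morphism to projective space defined by `v` is finite). -/
def FiniteStatement (K : Type u) [Field K] : Prop :=
  ∀ (X : Scheme.{u}) [IsIntegral X] (str : X ⟶ Spec (CommRingCat.of K)) [IsProper str] (g : ℕ)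
    (v : Fin (g + 1) → X.functionField), LS.Good v → v 0 ≠ 0 → 0 < LS.deg str v

open scoped IntermediateField.algebraAdjoinAdjoin in
/-- Core of the assembly: a good system on an abelian variety can be replaced by
`dim + 1` members of its `K`-span, with all the properties needed by `Stmt.Alpha`. -/
theorem exists_projection [IsAlgClosed K] (hFin : FiniteStatement K) (X : AbVar K)
    [IsIntegral X.A] (N : ℕ) (w : Fin (N + 1) → X.A.functionField) (hw : LS.Good w) :
    ∃ u : Fin (X.dim + 1) → X.A.functionField,
      LS.Good u ∧ LS.Same u w ∧ LS.Indep X.str u ∧ 0 < LS.deg X.str u := by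
  letI algF : Algebra K X.A.functionField := (ffStr X.str).toAlgebra
  haveI : IsProper X.str := X.bundle.proper
  haveI := X.smoothDim
  -- some member is nonzero
  obtain ⟨b, hb0, -⟩ := hw.1 (genericPoint X.A)
  obtain ⟨g, a, hu0, hind, -, hH, -⟩ := graded_noether_ratios (K := K) w ⟨b, hb0⟩
  have hlin : linSys X.str a w = lin a w := linSys_eq_lin X.str a w
  rw [← hlin] at hu0 hind hH
  set u := linSys X.str a w with hu
  -- Good and Same
  have hgood : LS.Good u ∧ LS.Same u w :=
    H566.good_of_linearCombination_ffStr X.str w hw a u (fun j => rfl)
      (fun x => genBy_of_homIntegral X.str a w hw.1 hH x)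
  -- finite degree
  have hdeg : 0 < LS.deg X.str u := hFin X.A X.str g u hgood.1 hu0
  -- the number of members is `dim + 1`
  have hg : g = X.dim := by
    have htr := H86.trdeg_functionField X.str X.dim
    haveI hfin : Module.Finite (LS.coordField X.str u) X.A.functionField :=
      Module.finite_of_finrank_pos hdeg
    haveI halg : Algebra.IsAlgebraic (LS.coordField X.str u) X.A.functionField :=
      Algebra.IsAlgebraic.of_finite _ _
    haveI : Algebra.IsAlgebraic (IntermediateField.adjoin K (Set.range (LS.ratios u)))
        X.A.functionField := by
      refine ⟨fun y => ?_⟩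
      let f : LS.coordField X.str u →+* IntermediateField.adjoin K (Set.range (LS.ratios u)) :=
        { toFun := fun x => ⟨x.1, x.2⟩
          map_one' := rfl
          map_mul' := fun _ _ => rfl
          map_zero' := rfl
          map_add' := fun _ _ => rfl }
      have hf : Function.Injective f := fun a b hab => Subtype.ext (congrArg Subtype.val hab)
      exact (halg.isAlgebraic y).ringHom_of_comp_eq f (RingHom.id X.A.functionField) hf rfl
    haveI : Algebra.IsAlgebraic (Algebra.adjoin K (Set.range (LS.ratios u)))
        (IntermediateField.adjoin K (Set.range (LS.ratios u))) :=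
      IsLocalization.isAlgebraic _
        (nonZeroDivisors (Algebra.adjoin K (Set.range (LS.ratios u))))
    haveI : Algebra.IsAlgebraic (Algebra.adjoin K (Set.range (LS.ratios u)))
        X.A.functionField :=
      Algebra.IsAlgebraic.trans _
        (IntermediateField.adjoin K (Set.range (LS.ratios u))) _
    have hind' : AlgebraicIndependent K (LS.ratios u) := hind
    have hbasis : IsTranscendenceBasis K (LS.ratios u) :=
      hind'.isTranscendenceBasis_iff_isAlgebraic.mpr inferInstance
    have hcard := hbasis.lift_cardinalMk_eq_trdeg
    rw [htr] at hcard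
    have : ((g : ℕ) : Cardinal.{u}) = (X.dim : Cardinal.{u}) := by
      simpa using hcard
    exact_mod_cast this
  subst hg
  exact ⟨u, hgood.1, hgood.2, H86.abVar_indep_of_deg_pos X u hdeg, hdeg⟩

/-- **AM-A4** (`Ample.Stmt.Project`, interface of helper752) from A4-a. -/
theorem project_of [IsAlgClosed K] (hFin : FiniteStatement K) : Ample.Stmt.Project K :=
  fun X _ N w hw => exists_projection hFin X N w hw

/-- **AM-A4** in the shape of helper926 (`H926.Ample.Project`) from A4-a. -/
theorem project926_of [IsAlgClosed K] (hFin : FiniteStatement K) : H926.Ample.Project K :=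
  fun X _ N w hw => by
    obtain ⟨u, h1, h2, h3, h4⟩ := exists_projection hFin X N w hw
    exact ⟨u, h1, h3, h4, h2⟩

end Assembly

end

end Fermat.Agent.S26.Ample.H277
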